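/-
S55 / route R3, variant W55, leaf 91-TOP-W55 (helper38): the field `persist` of
`EW55.LevelData.Data`, LITERALLY, for an arbitrary target `I` and arbitrary maps `α`.

If every `Γ`-map `𝔽_p[G/U₀] → I` takes its values in `B = range (S α)`, then so does every
`Γ`-map `M → I` for `M` trivialised by `U₀`: every `m : M` is the image of `δ_1` under the
`Γ`-map `𝔽_p[G/U₀] → M`, `δ_x ↦ x • m`.
-/
import Fermat.Agent.S55.EW55.LevelData

set_option autoImplicit false
set_option linter.unusedSectionVars false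
set_option linter.unusedVariables false
set_option linter.style.haveILetI false

open CategoryTheory Module
open Fermat.Agent.S55.Profin15
open Fermat.Agent.Lib.FrobeniusExists (Qb GQ)
open Fermat.Agent.S55.Contract34
open Fermat.Agent.S55.ProfinLocal31

noncomputable section

namespace Fermat.Agent.S55.FormalTop38.Persist

open Fermat.Agent.S55.EW55.Inst Fermat.Agent.S55.EW55.FormalPT Fermat.Agent.S55.EW55.LevelData

variable {p : ℕ} [Fact p.Prime]

/-- the orbit map `G/U₀ → M`, `x U₀ ↦ x • m`, for `U₀` acting trivially on `M`. -/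
def orb (M : Rep.{0} (ZMod p) GQ) (U₀ : Subgroup GQ) (hM : U₀ ≤ M.ρ.ker) (m : M) :
    GQ ⧸ U₀ → M :=
  fun x => Quotient.liftOn' x (fun g => M.ρ g m) (by
    intro a b hab
    have h1 : a⁻¹ * b ∈ U₀ := QuotientGroup.leftRel_apply.1 hab
    have h2 : M.ρ (a⁻¹ * b) = 1 := MonoidHom.mem_ker.1 (hM h1)
    have h3 : b = a * (a⁻¹ * b) := by group
    show M.ρ a m = M.ρ b m
    rw [h3, map_mul, h2, mul_one])

lemma orb_mk (M : Rep.{0} (ZMod p) GQ) (U₀ : Subgroup GQ) (hM : U₀ ≤ M.ρ.ker) (m : M) (g : GQ) :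
    orb M U₀ hM m (g : GQ ⧸ U₀) = M.ρ g m := rfl

/-- the linear map `𝔽_p[G/U₀] → M`, `δ_x ↦ x • m`. -/
def orbLin (M : Rep.{0} (ZMod p) GQ) (U₀ : Subgroup GQ) (hM : U₀ ≤ M.ρ.ker) (m : M) :
    (perm p U₀) →ₗ[ZMod p] M :=
  Finsupp.linearCombination (ZMod p) (orb M U₀ hM m) ∘ₗ
    (MonoidAlgebra.coeffLinearEquiv (ZMod p)).toLinearMap

lemma orbLin_single (M : Rep.{0} (ZMod p) GQ) (U₀ : Subgroup GQ) (hM : U₀ ≤ M.ρ.ker) (m : M)
    (x : GQ ⧸ U₀) (r : ZMod p) :
    orbLin M U₀ hM m (MonoidAlgebra.single x r) = r • orb M U₀ hM m x := by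
  show Finsupp.linearCombination (ZMod p) (orb M U₀ hM m)
    (MonoidAlgebra.coeffLinearEquiv (ZMod p) (MonoidAlgebra.single x r)) = _
  rw [show MonoidAlgebra.coeffLinearEquiv (ZMod p) (MonoidAlgebra.single x r)
    = Finsupp.single x r from by simp]
  exact Finsupp.linearCombination_single _ _ _

lemma orbLin_rho (M : Rep.{0} (ZMod p) GQ) (U₀ : Subgroup GQ) (hM : U₀ ≤ M.ρ.ker) (m : M)
    (g : GQ) (a : perm p U₀) :
    orbLin M U₀ hM m ((perm p U₀).ρ g a) = M.ρ g (orbLin M U₀ hM m a) := by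
  induction a using MonoidAlgebra.induction_linear with
  | zero => simp
  | add x y hx hy => rw [map_add, map_add, map_add, hx, hy, map_add]
  | single x r =>
    have h1 : (perm p U₀).ρ g (MonoidAlgebra.single x r) = MonoidAlgebra.single (g • x) r :=
      Representation.ofMulAction_single _ _ _
    rw [h1, orbLin_single, orbLin_single, map_smul]
    congr 1
    induction x using QuotientGroup.induction_on with
    | H y =>
      show M.ρ (g * y) m = M.ρ g (M.ρ y m)
      rw [map_mul]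
      rfl

variable (S : Finset Nat.Primes) (V : Subgroup GQ) [V.Normal]

/-- the `Γ`-map `𝔽_p[G/U₀]_V → M_V`, `δ_x ↦ x • m`. -/
def orbHom (M : Rep.{0} (ZMod p) GQ) (U₀ : Subgroup GQ) (hVU : V ≤ U₀) (hM : U₀ ≤ M.ρ.ker)
    (m : M) :
    LevelModel.levelRep (perm p U₀) V (le_ker_perm V hVU) ⟶
      LevelModel.levelRep M V (hVU.trans hM) :=
  Rep.ofHom (ρ := (LevelModel.levelRep (perm p U₀) V (le_ker_perm V hVU)).ρ)
    (σ := (LevelModel.levelRep M V (hVU.trans hM)).ρ)
    ⟨orbLin M U₀ hM m, fun γ => by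
      induction γ using QuotientGroup.induction_on with
      | H g =>
        apply LinearMap.ext
        intro a
        exact orbLin_rho M U₀ hM m g a⟩

lemma orbHom_single_one (M : Rep.{0} (ZMod p) GQ) (U₀ : Subgroup GQ) (hVU : V ≤ U₀)
    (hM : U₀ ≤ M.ρ.ker) (m : M) :
    (orbHom V M U₀ hVU hM m).hom (MonoidAlgebra.single ((1 : GQ) : GQ ⧸ U₀) (1 : ZMod p)) = m := by
  show orbLin M U₀ hM m (MonoidAlgebra.single ((1 : GQ) : GQ ⧸ U₀) (1 : ZMod p)) = m
  rw [orbLin_single, orb_mk, one_smul, map_one]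
  rfl

variable (hμ : V ≤ (mu p).ρ.ker)

/-- **The field `persist` of `EW55.LevelData.Data`**, for an arbitrary target `I` and maps `α`. -/
theorem persist {I : Rep.{0} (ZMod p) (GQ ⧸ V)}
    (α : ∀ q : ↥S, CoindZ (DS S V) (muV V hμ) q ⟶ I)
    (U₀ : Subgroup GQ) (hVU : V ≤ U₀)
    (h : HomB (LevelModel.levelRep (perm p U₀) V (le_ker_perm V hVU)) α = ⊤)
    (M : Rep.{0} (ZMod p) GQ) [FiniteDimensional (ZMod p) M] (hM : U₀ ≤ M.ρ.ker) :
    HomB (LevelModel.levelRep M V (hVU.trans hM)) α = ⊤ := by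
  rw [eq_top_iff]
  intro f _ m
  have h1 : orbHom V M U₀ hVU hM m ≫ f ∈
      HomB (LevelModel.levelRep (perm p U₀) V (le_ker_perm V hVU)) α := by
    rw [h]; trivial
  have h2 := h1 (MonoidAlgebra.single ((1 : GQ) : GQ ⧸ U₀) (1 : ZMod p))
  have h3 : (orbHom V M U₀ hVU hM m ≫ f).hom
      (MonoidAlgebra.single ((1 : GQ) : GQ ⧸ U₀) (1 : ZMod p)) = f.hom m := by
    show f.hom ((orbHom V M U₀ hVU hM m).hom _) = f.hom m
    exact congrArg f.hom (orbHom_single_one V M U₀ hVU hM m)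
  rw [h3] at h2
  exact h2

end Fermat.Agent.S55.FormalTop38.Persist
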