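/-
S55 / route R3, variant W55, leaf 91-TOP-W55 (helper38): the LINEAR-ALGEBRA half of the field
`count` of `EW55.LevelData.Data` = identity (E) at one finite level WITH the defect term.

Generalises helper25's `FormalTop25.DualSha.finrank_ker_eq_finrank_sha1Fin` (the case
`HomB M α = ⊤`): from
* `hE : FormalPT.ExactE α`,
* `Φ : Dual X ≃ (M ⟶ I)` (Eilenberg–Watts, `X = H²(G_S, M)`),
* `hP : range (Pmap hE) = Φ (range (sumDual loc))` (local duality onto + key formula),
* `Hom_Γ(M, I)` finite-dimensional,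
the common kernel `K = ⨅ v, ker (loc v)` is finite-dimensional and
`dim K = dim sha1Fin D M Z + dim ((M ⟶ I) ⧸ HomB M α)`.
Mathlib + `EW55/FormalPT` + `FormalTop25/DualSha` only.
-/
import Fermat.Agent.S55.FormalTop25.DualSha

set_option autoImplicit false
set_option linter.unusedSectionVars false
set_option linter.style.haveILetI false

open CategoryTheory groupCohomology Module

noncomputable section

namespace Fermat.Agent.S55.FormalTop38.CountLin

open Fermat.Agent.S55.EW55 Fermat.Agent.S55.FormalTop25.DualSha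

section LinearAlgebra

variable {k : Type*} [Field k] {A : Type*} [AddCommGroup A] [Module k A] [Module.Finite k A]

/-- `R ≤ B ≤ A`: `dim A/R = dim B/R + dim A/B`. -/
lemma finrank_quot_chain (R B : Submodule k A) (h : R ≤ B) :
    finrank k (A ⧸ R) = finrank k (↥B ⧸ R.comap B.subtype) + finrank k (A ⧸ B) := by
  have h1 := Submodule.finrank_quotient_add_finrank R
  have h2 := Submodule.finrank_quotient_add_finrank B
  have h3 := Submodule.finrank_quotient_add_finrank (R.comap B.subtype)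
  have h4 : finrank k ↥(R.comap B.subtype) = finrank k ↥R :=
    (Submodule.comapSubtypeEquivOfLe h).finrank_eq
  omega

end LinearAlgebra

variable {k : Type} [Field k] {Γ : Type} [Group Γ] {ι : Type} [Fintype ι] [Nonempty ι]
  {D : ι → Subgroup Γ} {M Z I : Rep.{0} k Γ} {α : ∀ v, FormalPT.CoindZ D Z v ⟶ I}
  {X : Type} [AddCommGroup X] [Module k X]
  {Y : ι → Type} [∀ v, AddCommGroup (Y v)] [∀ v, Module k (Y v)]

lemma range_Pmap_le_HomB (hE : FormalPT.ExactE α) :
    LinearMap.range (FormalPT.Pmap (M := M) hE) ≤ FormalPT.HomB M α := by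
  rintro _ ⟨n, rfl⟩
  exact FormalPT.Psi_mem_HomB hE (FormalPT.inclLoc D M Z n)

/-- the dual of the common kernel of the `loc v` is `Hom_Γ(M, I) ⧸ range Pmap`. -/
theorem nonempty_dualKer_equiv_quot (hE : FormalPT.ExactE α)
    (loc : ∀ v, X →ₗ[k] Y v) (Φ : Module.Dual k X ≃ₗ[k] (M ⟶ I))
    (hP : LinearMap.range (FormalPT.Pmap (M := M) hE) =
      (LinearMap.range (sumDual loc)).map (Φ : Module.Dual k X →ₗ[k] (M ⟶ I))) :
    Nonempty (Module.Dual k ↥(⨅ v, LinearMap.ker (loc v)) ≃ₗ[k]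
      ((M ⟶ I) ⧸ LinearMap.range (FormalPT.Pmap (M := M) hE))) := by
  set K : Submodule k X := ⨅ v, LinearMap.ker (loc v) with hK
  have e1 : (Module.Dual k X ⧸ K.dualAnnihilator) ≃ₗ[k] Module.Dual k ↥K :=
    Subspace.quotAnnihilatorEquiv K
  have hmap : K.dualAnnihilator.map (Φ : Module.Dual k X →ₗ[k] (M ⟶ I)) =
      LinearMap.range (FormalPT.Pmap (M := M) hE) := by
    rw [hP, range_sumDual]
  have e2 : (Module.Dual k X ⧸ K.dualAnnihilator) ≃ₗ[k]
      ((M ⟶ I) ⧸ LinearMap.range (FormalPT.Pmap (M := M) hE)) :=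
    Submodule.Quotient.equiv _ _ Φ hmap
  exact ⟨e1.symm ≪≫ₗ e2⟩

/-- **Identity (E) at one finite level, with the defect term.** -/
theorem finrank_ker_eq_add (hE : FormalPT.ExactE α)
    (loc : ∀ v, X →ₗ[k] Y v) (Φ : Module.Dual k X ≃ₗ[k] (M ⟶ I))
    (hP : LinearMap.range (FormalPT.Pmap (M := M) hE) =
      (LinearMap.range (sumDual loc)).map (Φ : Module.Dual k X →ₗ[k] (M ⟶ I)))
    [Module.Finite k (M ⟶ I)] :
    Module.Finite k ↥(⨅ v, LinearMap.ker (loc v)) ∧
      finrank k ↥(⨅ v, LinearMap.ker (loc v)) =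
        finrank k ↥(FormalPT.sha1Fin D M Z) +
          finrank k ((M ⟶ I) ⧸ FormalPT.HomB M α) := by
  obtain ⟨e⟩ := nonempty_dualKer_equiv_quot hE loc Φ hP
  haveI : Module.Finite k (Module.Dual k ↥(⨅ v, LinearMap.ker (loc v))) :=
    Module.Finite.equiv e.symm
  have hfin : Module.Finite k ↥(⨅ v, LinearMap.ker (loc v)) :=
    (Module.finite_dual_iff k).1 inferInstance
  refine ⟨hfin, ?_⟩
  rw [← Subspace.dual_finrank_eq, e.finrank_eq,
    finrank_quot_chain _ _ (range_Pmap_le_HomB (M := M) hE),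
    (FormalPT.quotEquiv (M := M) hE).finrank_eq]

/-- the same with `X` finite-dimensional instead of `Hom_Γ(M, I)`. -/
theorem finrank_ker_eq_add' (hE : FormalPT.ExactE α)
    (loc : ∀ v, X →ₗ[k] Y v) (Φ : Module.Dual k X ≃ₗ[k] (M ⟶ I))
    (hP : LinearMap.range (FormalPT.Pmap (M := M) hE) =
      (LinearMap.range (sumDual loc)).map (Φ : Module.Dual k X →ₗ[k] (M ⟶ I)))
    [Module.Finite k X] :
    Module.Finite k ↥(⨅ v, LinearMap.ker (loc v)) ∧
      finrank k ↥(⨅ v, LinearMap.ker (loc v)) =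
        finrank k ↥(FormalPT.sha1Fin D M Z) +
          finrank k ((M ⟶ I) ⧸ FormalPT.HomB M α) := by
  haveI : Module.Finite k (M ⟶ I) := Module.Finite.equiv Φ
  exact finrank_ker_eq_add hE loc Φ hP

end Fermat.Agent.S55.FormalTop38.CountLin
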