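/-
S55 / route R3, variant W55, leaf 91-TOP-W55 (helper38): the field `finite_hom` of
`EW55.LevelData.Data` for `I := (TS S V).I`.

* generic: `Hom_Γ(N, I)` is finite-dimensional as soon as `N` and `I` are
  (it embeds into `Hom_k(N, I)`);
* the dualizing module `T.I` of a `DualFun` has carrier `T.obj k[Γ]`; for `T = TS S V`
  this is the dual of `H²(G_S, infl k[Γ])`, finite-dimensional as soon as the latter is.
-/
import Fermat.Agent.S55.EW55.LevelData

set_option autoImplicit false
set_option linter.unusedSectionVars false
set_option linter.unusedVariables false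
set_option linter.style.haveILetI false

open CategoryTheory Module
open Fermat.Agent.S55.Profin15
open Fermat.Agent.Lib.FrobeniusExists (Qb GQ)
open Fermat.Agent.S55.Contract34
open Fermat.Agent.S55.ProfinLocal31

noncomputable section

namespace Fermat.Agent.S55.FormalTop38.FiniteHom

open Fermat.Agent.S55.EW55 Fermat.Agent.S55.EW55.Inst Fermat.Agent.S55.EW55.FormalPT
  Fermat.Agent.S55.EW55.LevelData

section Generic

variable {k : Type} [Field k] {Γ : Type} [Group Γ]

/-- the underlying linear map of a morphism, as a linear map -/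
def homToLin (N I : Rep.{0} k Γ) : (N ⟶ I) →ₗ[k] (N →ₗ[k] I) where
  toFun f := f.hom.toLinearMap
  map_add' _ _ := rfl
  map_smul' _ _ := rfl

lemma homToLin_injective (N I : Rep.{0} k Γ) : Function.Injective (homToLin N I) := by
  intro f g h
  apply Rep.hom_ext
  apply Representation.IntertwiningMap.ext
  exact h

/-- `Hom_Γ(N, I)` is finite-dimensional when `N` and `I` are. -/
theorem finite_hom (N I : Rep.{0} k Γ) [Module.Finite k N] [Module.Finite k I] :
    Module.Finite k (N ⟶ I) :=
  Module.Finite.of_injective (homToLin N I) (homToLin_injective N I)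

/-- the dualizing module of a `DualFun` is finite-dimensional when `T.obj k[Γ]` is. -/
theorem finite_I (T : DualFun k Γ) [h : Module.Finite k (T.obj (Rep.leftRegular k Γ))] :
    Module.Finite k T.I := h

theorem finite_hom_I (T : DualFun k Γ) [Module.Finite k (T.obj (Rep.leftRegular k Γ))]
    (N : Rep.{0} k Γ) [Module.Finite k N] : Module.Finite k (N ⟶ T.I) :=
  haveI := finite_I T
  finite_hom N T.I

end Generic

variable {p : ℕ} [Fact p.Prime] (S : Finset Nat.Primes) (V : Subgroup GQ) [V.Normal]

/-- **The field `finite_hom` of `EW55.LevelData.Data` for `I := (TS S V).I`**, from finiteness of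
`H²(G_S, infl 𝔽_p[Γ])` (part of `GlobalCokerDimL` at `U := V`). -/
theorem finite_hom_TS
    (hfin : Module.Finite (ZMod p) ((globalLevels S).H2
      (Rep.res (QuotientGroup.mk' V) (Rep.leftRegular (ZMod p) (GQ ⧸ V)))))
    (N : Rep.{0} (ZMod p) (GQ ⧸ V)) [Module.Finite (ZMod p) N] :
    Module.Finite (ZMod p) (N ⟶ (TS (p := p) S V).I) := by
  haveI := hfin
  haveI : Module.Finite (ZMod p) ((TS (p := p) S V).obj (Rep.leftRegular (ZMod p) (GQ ⧸ V))) :=
    inferInstanceAs (Module.Finite (ZMod p) (Module.Dual (ZMod p) ((globalLevels S).H2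
      (Rep.res (QuotientGroup.mk' V) (Rep.leftRegular (ZMod p) (GQ ⧸ V))))))
  exact finite_hom_I _ N

end Fermat.Agent.S55.FormalTop38.FiniteHom
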