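/-
Fermat.Agent.S55.FormalTop38.TPull (helper38) — shared base of the finite-level top layer (W55).

For a group `G` with a level structure `𝒰` and a group homomorphism `π : G →* Δ`, the
contravariant functor `N ↦ (H²(𝒰; π^* N))^*` on `Rep k Δ`, packaged as an `EW55.DualFun`.
It is left exact as soon as `H²(𝒰; π^* -)` is right exact and `ker π` contains a level.
-/
import Fermat.Agent.S55.EW55.Watts
import Fermat.Agent.S55.Profin15.LESNat

set_option autoImplicit false
set_option linter.style.haveILetI false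

open CategoryTheory
open Fermat.Agent.S55.Profin15 Fermat.Agent.S55.EW55

namespace Fermat.Agent.S55.FormalTop38

variable {k : Type} [Field k] {G Δ : Type} [Group G] [Group Δ]
variable (𝒰 : LevelStr G) (π : G →* Δ)

/-- The underlying linear map of `f : A ⟶ B`, between the pulled back representations. -/
def pullLin {A B : Rep.{0} k Δ} (f : A ⟶ B) : (Rep.res π A) →ₗ[k] (Rep.res π B) :=
  LevelStr.resLin π f.hom.toLinearMap

@[simp] lemma pullLin_apply {A B : Rep.{0} k Δ} (f : A ⟶ B) (a : A) :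
    pullLin π f a = f.hom a := rfl

lemma isEquivariant_pull {A B : Rep.{0} k Δ} (f : A ⟶ B) :
    LevelStr.IsEquivariant (pullLin π f) :=
  (LevelStr.isEquivariant_hom f).res π

/-- `H²(𝒰; π^* A) → H²(𝒰; π^* B)` induced by `f : A ⟶ B`. -/
noncomputable def H2pull {A B : Rep.{0} k Δ} (f : A ⟶ B) :
    𝒰.H2 (Rep.res π A) →ₗ[k] 𝒰.H2 (Rep.res π B) :=
  𝒰.H2map (pullLin π f) (isEquivariant_pull π f)

lemma H2pull_H2π {A B : Rep.{0} k Δ} (f : A ⟶ B) (x : ↥(𝒰.Z₂ (Rep.res π A))) :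
    H2pull 𝒰 π f (𝒰.H2π _ x) = 𝒰.H2π _ (𝒰.Z₂map (pullLin π f) (isEquivariant_pull π f) x) := rfl

lemma H2pull_id (A : Rep.{0} k Δ) : H2pull 𝒰 π (𝟙 A) = LinearMap.id := by
  refine LinearMap.ext fun x => ?_
  obtain ⟨c, rfl⟩ := Submodule.Quotient.mk_surjective _ x
  rfl

lemma H2pull_comp {A B C : Rep.{0} k Δ} (f : A ⟶ B) (g : B ⟶ C) :
    H2pull 𝒰 π (f ≫ g) = H2pull 𝒰 π g ∘ₗ H2pull 𝒰 π f := by
  refine LinearMap.ext fun x => ?_
  obtain ⟨c, rfl⟩ := Submodule.Quotient.mk_surjective _ x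
  rfl

lemma H2pull_add {A B : Rep.{0} k Δ} (f g : A ⟶ B) :
    H2pull 𝒰 π (f + g) = H2pull 𝒰 π f + H2pull 𝒰 π g := by
  refine LinearMap.ext fun x => ?_
  obtain ⟨c, rfl⟩ := Submodule.Quotient.mk_surjective _ x
  rfl

lemma H2pull_smul {A B : Rep.{0} k Δ} (a : k) (f : A ⟶ B) :
    H2pull 𝒰 π (a • f) = a • H2pull 𝒰 π f := by
  refine LinearMap.ext fun x => ?_
  obtain ⟨c, rfl⟩ := Submodule.Quotient.mk_surjective _ x
  rfl

/-- The contravariant functor `N ↦ (H²(𝒰; π^* N))^*`. -/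
noncomputable def TPull : DualFun k Δ where
  obj N := Module.Dual k (𝒰.H2 (Rep.res π N))
  map f := (H2pull 𝒰 π f).dualMap
  map_id A := by rw [H2pull_id]; exact LinearMap.dualMap_id
  map_comp f g := by rw [H2pull_comp]; exact LinearMap.dualMap_comp_dualMap _ _ |>.symm
  map_add f g := by rw [H2pull_add]; exact map_add _ _ _
  map_smul a f := by rw [H2pull_smul]; exact map_smul _ _ _

lemma TPull_obj (N : Rep.{0} k Δ) :
    (TPull 𝒰 π).obj N = Module.Dual k (𝒰.H2 (Rep.res π N)) := rfl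

lemma TPull_map_eq {A B : Rep.{0} k Δ} (f : A ⟶ B) (t : Module.Dual k (𝒰.H2 (Rep.res π B))) :
    (TPull 𝒰 π).map f t = t ∘ₗ H2pull 𝒰 π f := rfl

lemma TPull_map_apply {A B : Rep.{0} k Δ} (f : A ⟶ B) (t : Module.Dual k (𝒰.H2 (Rep.res π B)))
    (x : 𝒰.H2 (Rep.res π A)) :
    (show Module.Dual k (𝒰.H2 (Rep.res π A)) from (TPull 𝒰 π).map f t) x =
      t (H2pull 𝒰 π f x) := rfl

variable (k) in
/-- Right exactness of `H²(𝒰; π^* -)` on finite-dimensional representations of `Δ`. -/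
def RightExact : Prop :=
  ∀ (A B : Rep.{0} k Δ) [Module.Finite k A] [Module.Finite k B] (f : A ⟶ B),
    Function.Surjective f.hom → Function.Surjective (H2pull 𝒰 π f)

/-- The kernel of `π` contains a level. -/
def KerOpen : Prop := ∃ U ∈ 𝒰.levels, ∀ s ∈ U, π s = 1

variable {𝒰 π}

lemma isSmooth_pull (hker : KerOpen 𝒰 π) (N : Rep.{0} k Δ) : 𝒰.IsSmooth (Rep.res π N) := by
  obtain ⟨U, hU, hπ⟩ := hker
  intro m
  refine ⟨U, hU, fun s hs => ?_⟩
  change N.ρ (π s) m = m
  rw [hπ s hs, map_one]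
  rfl

lemma shortExact_pull {A B C : Rep.{0} k Δ} (f : A ⟶ B) (g : B ⟶ C)
    (hf : Function.Injective f.hom) (hg : Function.Surjective g.hom)
    (hfg : ∀ b, g.hom b = 0 ↔ ∃ a, f.hom a = b) :
    LevelStr.ShortExact (pullLin π f) (pullLin π g) where
  equivariant_left := isEquivariant_pull π f
  equivariant_right := isEquivariant_pull π g
  injective := hf
  surjective := hg
  exact := fun b => by
    rw [pullLin_apply, hfg b]
    rfl

/-- Middle exactness of `H²(𝒰; π^* -)`. -/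
theorem exact_H2pull (hker : KerOpen 𝒰 π) {A B C : Rep.{0} k Δ} (f : A ⟶ B) (g : B ⟶ C)
    (hf : Function.Injective f.hom) (hg : Function.Surjective g.hom)
    (hfg : ∀ b, g.hom b = 0 ↔ ∃ a, f.hom a = b) :
    Function.Exact (H2pull 𝒰 π f) (H2pull 𝒰 π g) :=
  (shortExact_pull f g hf hg hfg).exact_H2map_H2map 𝒰 (isSmooth_pull hker B)

/-- **Left exactness of `TPull`** from right exactness of `H²`. -/
theorem TPull_leftExact (hker : KerOpen 𝒰 π) (hRE : RightExact k 𝒰 π) :
    (TPull (k := k) 𝒰 π).LeftExact where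
  inj {A B} _ _ f hf := LinearMap.dualMap_injective_of_surjective (hRE A B f hf)
  exact {A B C} _ _ _ f g hf hg hfg t ht := by
    have hex := exact_H2pull hker f g hf hg hfg
    -- `t` kills `ker (H2pull g) = range (H2pull f)`
    have hmem : (show Module.Dual k (𝒰.H2 (Rep.res π B)) from t) ∈
        (LinearMap.ker (H2pull 𝒰 π g)).dualAnnihilator := by
      rw [Submodule.mem_dualAnnihilator]
      intro x hx
      obtain ⟨y, rfl⟩ := (hex x).1 hx
      exact congrArg (fun u : Module.Dual k (𝒰.H2 (Rep.res π A)) => u y) ht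
    rw [← LinearMap.range_dualMap_eq_dualAnnihilator_ker] at hmem
    obtain ⟨u, hu⟩ := hmem
    exact ⟨u, hu⟩

end Fermat.Agent.S55.FormalTop38
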