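/-
Fermat.Agent.S55.FormalTop38.LocDual (helper38) — T3 of TOP-W55: finite-level local duality (2,0).

Setting: `𝒰` a level structure on `G`, `π : G →* Δ` with `Δ` finite and open kernel, `H²(𝒰; π^* -)`
right exact, `Z` a one-dimensional representation of `Δ`, `lam ≠ 0` a functional on `H²(𝒰; π^* Z)`,
and `dim H²(𝒰; π^* k[Δ]) ≤ 1`.  Then the dualizing module `(TPull 𝒰 π).I` of the functor
`N ↦ H²(𝒰; π^* N)^*` is `Z` (via `iota`), and `φ ↦ lam ∘ H²(φ)` is a bijection
`Hom_Δ(N, Z) → H²(𝒰; π^* N)^*` for every finite-dimensional `N`.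
No Galois-equivariance of the invariant map is used.
-/
import Fermat.Agent.S55.FormalTop38.TPull

set_option autoImplicit false
set_option linter.style.haveILetI false

open CategoryTheory
open Fermat.Agent.S55.Profin15 Fermat.Agent.S55.EW55

namespace Fermat.Agent.S55.FormalTop38

variable {k : Type} [Field k] {G Δ : Type} [Group G] [Group Δ]
variable (𝒰 : LevelStr G) (π : G →* Δ)
variable (Z : Rep.{0} k Δ) (lam : Module.Dual k (𝒰.H2 (Rep.res π Z)))

/-- The comparison map `φ ↦ lam ∘ H²(φ)`. -/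
noncomputable def psi (N : Rep.{0} k Δ) : (N ⟶ Z) →ₗ[k] (TPull 𝒰 π).obj N where
  toFun φ := (TPull 𝒰 π).map φ lam
  map_add' φ φ' := (TPull 𝒰 π).map_add_apply φ φ' lam
  map_smul' a φ := (TPull 𝒰 π).map_smul_apply a φ lam

lemma psi_apply (N : Rep.{0} k Δ) (φ : N ⟶ Z) : psi 𝒰 π Z lam N φ = lam ∘ₗ H2pull 𝒰 π φ := rfl

/-- Naturality of `psi`. -/
lemma psi_natural {N N' : Rep.{0} k Δ} (f : N ⟶ N') (φ : N' ⟶ Z) :
    psi 𝒰 π Z lam N (f ≫ φ) = (TPull 𝒰 π).map f (psi 𝒰 π Z lam N' φ) :=
  (TPull 𝒰 π).map_comp_apply f φ lam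

variable {𝒰 π Z lam}

/-- A nonzero morphism to a one-dimensional representation is surjective. -/
lemma surjective_of_ne_zero (hZ : Module.finrank k Z = 1) {N : Rep.{0} k Δ} {φ : N ⟶ Z}
    (hφ : φ ≠ 0) : Function.Surjective φ.hom := by
  haveI : Module.Finite k Z := Module.finite_of_finrank_pos (by omega)
  have hne : LinearMap.range φ.hom.toLinearMap ≠ ⊥ := by
    intro h
    apply hφ
    apply Rep.hom_ext
    ext x
    have : φ.hom.toLinearMap x ∈ LinearMap.range φ.hom.toLinearMap := ⟨x, rfl⟩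
    rw [h] at this
    simpa using this
  have hpos : 0 < Module.finrank k (LinearMap.range φ.hom.toLinearMap) :=
    Module.finrank_pos_iff.2 (Submodule.nontrivial_iff_ne_bot.2 hne)
  have hle := Submodule.finrank_le (LinearMap.range φ.hom.toLinearMap)
  have htop : LinearMap.range φ.hom.toLinearMap = ⊤ :=
    Submodule.eq_top_of_finrank_eq (by omega)
  intro z
  have : z ∈ LinearMap.range φ.hom.toLinearMap := htop ▸ Submodule.mem_top
  exact this

theorem psi_injective (hRE : RightExact k 𝒰 π) (hZ : Module.finrank k Z = 1) (hlam : lam ≠ 0)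
    (N : Rep.{0} k Δ) [Module.Finite k N] : Function.Injective (psi 𝒰 π Z lam N) := by
  haveI : Module.Finite k Z := Module.finite_of_finrank_pos (by omega)
  rw [← LinearMap.ker_eq_bot, LinearMap.ker_eq_bot']
  intro φ hφ
  by_contra hne
  have hsurj := hRE N Z φ (surjective_of_ne_zero hZ hne)
  apply hlam
  refine LinearMap.ext fun y => ?_
  obtain ⟨x, rfl⟩ := hsurj y
  exact congrArg (fun u : Module.Dual k (𝒰.H2 (Rep.res π N)) => u x) hφ

variable (𝒰 π Z lam) in
/-- The canonical morphism from `Z` to the dualizing module of `TPull`. -/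
noncomputable def iota : Z ⟶ (TPull 𝒰 π).I := (TPull 𝒰 π).Phi Z lam

variable [Finite Δ]

theorem iota_ne_zero (hker : KerOpen 𝒰 π) (hRE : RightExact k 𝒰 π)
    (hZ : Module.finrank k Z = 1) (hlam : lam ≠ 0) : iota 𝒰 π Z lam ≠ 0 := by
  haveI : Module.Finite k Z := Module.finite_of_finrank_pos (by omega)
  intro h
  apply hlam
  have hinj := (TPull 𝒰 π).Phi_injective (TPull_leftExact hker hRE) Z
  apply hinj
  exact h.trans (map_zero ((TPull 𝒰 π).Phi Z)).symm

/-- **The local dualizing module at level `Δ` is `Z`.** -/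
theorem iota_bijective (hker : KerOpen 𝒰 π) (hRE : RightExact k 𝒰 π)
    (hZ : Module.finrank k Z = 1) (hlam : lam ≠ 0)
    (hfin : Module.Finite k (𝒰.H2 (Rep.res π (Rep.leftRegular k Δ))))
    (hdim : Module.finrank k (𝒰.H2 (Rep.res π (Rep.leftRegular k Δ))) ≤ 1) :
    Function.Bijective (iota 𝒰 π Z lam).hom := by
  haveI : Module.Finite k Z := Module.finite_of_finrank_pos (by omega)
  have hne := iota_ne_zero hker hRE hZ hlam
  set ι := iota 𝒰 π Z lam with hι
  -- the target has dimension `≤ 1`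
  haveI : Module.Finite k (Module.Dual k (𝒰.H2 (Rep.res π (Rep.leftRegular k Δ)))) :=
    inferInstance
  have hdimI : Module.finrank k (Module.Dual k (𝒰.H2 (Rep.res π (Rep.leftRegular k Δ)))) ≤ 1 := by
    rw [Subspace.dual_finrank_eq]
    exact hdim
  -- injectivity
  have hinj : Function.Injective ι.hom.toLinearMap := by
    rw [← LinearMap.ker_eq_bot, LinearMap.ker_eq_bot']
    intro z hz
    by_contra hz0
    apply hne
    apply Rep.hom_ext
    ext x
    have hspan := (finrank_eq_one_iff_of_nonzero z hz0).1 hZ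
    have hx : x ∈ Submodule.span k {z} := hspan ▸ Submodule.mem_top
    obtain ⟨a, rfl⟩ := Submodule.mem_span_singleton.1 hx
    change ι.hom.toLinearMap (a • z) = 0
    rw [map_smul, hz, smul_zero]
  have hle : Module.finrank k Z ≤
      Module.finrank k (Module.Dual k (𝒰.H2 (Rep.res π (Rep.leftRegular k Δ)))) :=
    LinearMap.finrank_le_finrank_of_injective (f := ι.hom.toLinearMap) hinj
  have heq : Module.finrank k Z =
      Module.finrank k (Module.Dual k (𝒰.H2 (Rep.res π (Rep.leftRegular k Δ)))) := by omega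
  exact ⟨hinj, (LinearMap.injective_iff_surjective_of_finrank_eq_finrank
    (f := ι.hom.toLinearMap) heq).1 hinj⟩

/-- **Finite-level local duality (2,0)**: `φ ↦ lam ∘ H²(φ)` is bijective. -/
theorem psi_bijective (hker : KerOpen 𝒰 π) (hRE : RightExact k 𝒰 π)
    (hZ : Module.finrank k Z = 1) (hlam : lam ≠ 0)
    (hfin : Module.Finite k (𝒰.H2 (Rep.res π (Rep.leftRegular k Δ))))
    (hdim : Module.finrank k (𝒰.H2 (Rep.res π (Rep.leftRegular k Δ))) ≤ 1)
    (N : Rep.{0} k Δ) [Module.Finite k N] : Function.Bijective (psi 𝒰 π Z lam N) := by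
  haveI : Module.Finite k Z := Module.finite_of_finrank_pos (by omega)
  refine ⟨psi_injective hRE hZ hlam N, ?_⟩
  have hbij := iota_bijective hker hRE hZ hlam hfin hdim
  haveI : IsIso (iota 𝒰 π Z lam) := by
    have : IsIso ((forget (Rep.{0} k Δ)).map (iota 𝒰 π Z lam)) := (isIso_iff_bijective _).2 hbij
    exact isIso_of_reflects_iso _ (forget _)
  have hT := TPull_leftExact hker hRE
  intro t
  -- `Φ_N t = φ ≫ ι` for `φ := Φ_N t ≫ ι⁻¹`
  refine ⟨(TPull 𝒰 π).Phi N t ≫ inv (iota 𝒰 π Z lam), ?_⟩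
  apply (TPull 𝒰 π).Phi_injective hT N
  let lam' : (TPull (k := k) 𝒰 π).obj Z := lam
  have key := (TPull 𝒰 π).Phi_natural ((TPull 𝒰 π).Phi N t ≫ inv (iota 𝒰 π Z lam)) lam'
  refine key.trans ?_
  change ((TPull 𝒰 π).Phi N t ≫ inv (iota 𝒰 π Z lam)) ≫ iota 𝒰 π Z lam = _
  rw [Category.assoc, IsIso.inv_hom_id, Category.comp_id]

end Fermat.Agent.S55.FormalTop38
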