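/-
S55 / route R3, variant W55, leaf 91-TOP-W55 (helper38): for `p` odd and `M` trivialised by the
level `V`, `sha₂ S M` is the common kernel of the localisation maps
`Inst.locM S V q (levelRep M V hM)` on `H²(G_S, infl (M_V))` (`q ∈ S`).

This is input (b) of the field `count` of `EW55.LevelData.Data`: together with
`FormalTop38.CountLin.finrank_ker_eq_add` (at `loc q := Inst.locM S V q (levelRep M V hM)`) it
gives the count for `sha₂ S M`.
-/
import Fermat.Agent.S55.EW55.LevelData
import Fermat.Agent.S55.Profin15.ShaFinite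

set_option autoImplicit false
set_option linter.unusedSectionVars false
set_option linter.unusedVariables false
set_option linter.style.haveILetI false

open CategoryTheory Module groupCohomology ExtCitation
open Fermat.Agent.S55.Profin15
open Fermat.Agent.Lib.FrobeniusExists (Qb GQ)
open Fermat.Agent.S55.Contract34
open Fermat.Agent.S55.Profin15.Plug
open Fermat.Agent.S55.ProfinLocal31

noncomputable section

namespace Fermat.Agent.S55.FormalTop38.ShaKer

open Fermat.Agent.S55.EW55.Inst Fermat.Agent.S55.EW55.LevelData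

variable {p : ℕ} [Fact p.Prime] (S : Finset Nat.Primes) (V : Subgroup GQ) [V.Normal]
variable (M : Rep.{0} (ZMod p) GQ) (hM : V ≤ M.ρ.ker)

/-- the identity `M → infl (M_V)` -/
def toLev : M →ₗ[ZMod p] Rep.res (QuotientGroup.mk' V) (LevelModel.levelRep M V hM) :=
  LinearMap.id

/-- the identity `infl (M_V) → M` -/
def ofLev : Rep.res (QuotientGroup.mk' V) (LevelModel.levelRep M V hM) →ₗ[ZMod p] M :=
  LinearMap.id

lemma toLev_equivariant : LevelStr.IsEquivariant (toLev V M hM) := fun _ _ => rfl

lemma ofLev_equivariant : LevelStr.IsEquivariant (ofLev V M hM) := fun _ _ => rfl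

/-- `H²(G_S, M) ≃ H²(G_S, infl (M_V))` (identity on cocycles) -/
def eH2 : (globalLevels S).H2 M ≃ₗ[ZMod p]
    (globalLevels S).H2 (Rep.res (QuotientGroup.mk' V) (LevelModel.levelRep M V hM)) :=
  LinearEquiv.ofLinearMap
    ((globalLevels S).H2map (toLev V M hM) (toLev_equivariant V M hM))
    ((globalLevels S).H2map (ofLev V M hM) (ofLev_equivariant V M hM))
    (by
      refine LinearMap.ext fun x => ?_
      obtain ⟨c, rfl⟩ := Submodule.mkQ_surjective _ x
      rfl)
    (by
      refine LinearMap.ext fun x => ?_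
      obtain ⟨c, rfl⟩ := Submodule.mkQ_surjective _ x
      rfl)

lemma eH2_apply (x : (globalLevels S).H2 M) :
    eH2 S V M hM x = (globalLevels S).H2map (toLev V M hM) (toLev_equivariant V M hM) x := rfl

/-- the identity `res_q M → infl_q (res_{D_q} M_V)` -/
def toLoc (q : ↥S) : Rep.res (primeLocalToGlobal q.1) M →ₗ[ZMod p]
    Rep.res (piQ V q.1) (Rep.res (D V q.1).subtype (LevelModel.levelRep M V hM)) :=
  LinearMap.id

/-- the identity `infl_q (res_{D_q} M_V) → res_q M` -/
def ofLoc (q : ↥S) : Rep.res (piQ V q.1) (Rep.res (D V q.1).subtype (LevelModel.levelRep M V hM))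
    →ₗ[ZMod p] Rep.res (primeLocalToGlobal q.1) M :=
  LinearMap.id

lemma toLoc_equivariant (q : ↥S) : LevelStr.IsEquivariant (toLoc S V M hM q) := fun _ _ => rfl

lemma ofLoc_equivariant (q : ↥S) : LevelStr.IsEquivariant (ofLoc S V M hM q) := fun _ _ => rfl

/-- `locM ∘ eH2 = H²(id) ∘ locq` -/
lemma locM_eH2 (q : ↥S) (x : (globalLevels S).H2 M) :
    locM (p := p) S V q (LevelModel.levelRep M V hM) (eH2 S V M hM x) =
      (pullLevels (primeLocalToGlobal q.1)).H2map (toLoc S V M hM q) (toLoc_equivariant S V M hM q)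
        (locq p S q.1 M x) := by
  obtain ⟨c, rfl⟩ := Submodule.mkQ_surjective _ x
  rfl

lemma ofLoc_toLoc (q : ↥S)
    (y : (pullLevels (primeLocalToGlobal q.1)).H2 (Rep.res (primeLocalToGlobal q.1) M)) :
    (pullLevels (primeLocalToGlobal q.1)).H2map (ofLoc S V M hM q) (ofLoc_equivariant S V M hM q)
      ((pullLevels (primeLocalToGlobal q.1)).H2map (toLoc S V M hM q)
        (toLoc_equivariant S V M hM q) y) = y := by
  obtain ⟨c, rfl⟩ := Submodule.mkQ_surjective _ y
  rfl

lemma locM_eH2_eq_zero_iff (q : ↥S) (x : (globalLevels S).H2 M) :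
    locM (p := p) S V q (LevelModel.levelRep M V hM) (eH2 S V M hM x) = 0 ↔
      locq p S q.1 M x = 0 := by
  rw [locM_eH2]
  constructor
  · intro h
    have := congrArg ((pullLevels (primeLocalToGlobal q.1)).H2map (ofLoc S V M hM q)
      (ofLoc_equivariant S V M hM q)) h
    rwa [ofLoc_toLoc, map_zero] at this
  · intro h
    rw [h, map_zero]

/-- the image of `ShaF₂ S M` under `eH2` is the common kernel of the `locM` -/
theorem map_ShaF₂ :
    (ShaF₂ S M).map (eH2 S V M hM : (globalLevels S).H2 M →ₗ[ZMod p] _) =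
      ⨅ q : ↥S, LinearMap.ker (locM (p := p) S V q (LevelModel.levelRep M V hM)) := by
  ext y
  obtain ⟨x, rfl⟩ := (eH2 S V M hM).surjective y
  simp only [Submodule.mem_iInf, LinearMap.mem_ker]
  constructor
  · rintro ⟨x', hx', hxx'⟩ q
    have : x' = x := (eH2 S V M hM).injective hxx'
    subst this
    rw [locM_eH2_eq_zero_iff]
    exact (mem_ShaF₂_iff S M x').1 hx' q
  · intro h
    refine ⟨x, ?_, rfl⟩
    rw [SetLike.mem_coe, mem_ShaF₂_iff]
    intro q
    exact (locM_eH2_eq_zero_iff S V M hM q x).1 (h q)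

/-- **for `p` odd, `sha₂ S M` is the common kernel of the level localisation maps** -/
def sha₂EquivKer (hp2 : p ≠ 2) :
    ↥(sha₂ S M) ≃ₗ[ZMod p]
      ↥(⨅ q : ↥S, LinearMap.ker (locM (p := p) S V q (LevelModel.levelRep M V hM))) :=
  (sha₂EquivF S hp2 M).trans
    (((eH2 S V M hM).submoduleMap (ShaF₂ S M)).trans
      (LinearEquiv.ofEq _ _ (map_ShaF₂ S V M hM)))

/-- finiteness and dimension of `sha₂ S M` from those of the common kernel -/
theorem finrank_sha₂ (hp2 : p ≠ 2)
    [Module.Finite (ZMod p)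
      ↥(⨅ q : ↥S, LinearMap.ker (locM (p := p) S V q (LevelModel.levelRep M V hM)))] :
    FiniteDimensional (ZMod p) ↥(sha₂ S M) ∧
      finrank (ZMod p) ↥(sha₂ S M) = finrank (ZMod p)
        ↥(⨅ q : ↥S, LinearMap.ker (locM (p := p) S V q (LevelModel.levelRep M V hM))) :=
  ⟨Module.Finite.equiv (sha₂EquivKer S V M hM hp2).symm,
    (sha₂EquivKer S V M hM hp2).finrank_eq⟩

end Fermat.Agent.S55.FormalTop38.ShaKer
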